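/-
S25 LIB (helper2411): bridge between the frozen relation `GluedModule.IsBC`
(`BaseChangeData`, universal-property form) and Mathlib's `IsBaseChange`.
Part 1: abstract single-module lemmas.
-/
import Fermat.Agent.S25.Defs

set_option autoImplicit false
set_option linter.style.haveILetI false

universe u

namespace Fermat.Agent.S25.Lib.BCRel

open scoped TensorProduct

section single

variable {B B' : Type u} [CommRing B] [CommRing B'] [Algebra B B']
  {M M' : Type u} [AddCommGroup M] [Module B M] [AddCommGroup M'] [Module B' M']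
  [Module B M'] [IsScalarTower B B' M']

/-- The universal property used in `BaseChangeData` implies Mathlib's `IsBaseChange`. -/
theorem isBaseChange_of_univ (j : M →ₗ[B] M')
    (huniv : ∀ (Q : Type u) [AddCommGroup Q] [Module B' Q] (h : M →+ Q),
      (∀ (b : B) (n : M), h (b • n) = algebraMap B B' b • h n) →
        ∃! h' : M' →ₗ[B'] Q, ∀ n, h' (j n) = h n) :
    IsBaseChange B' j := by
  -- the canonical map `c : B' ⊗[B] M → M'`
  let c : B' ⊗[B] M →ₗ[B'] M' := TensorProduct.AlgebraTensorModule.lift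
    (((Algebra.linearMap B' <| Module.End B' (M →ₗ[B] M')).flip j))
  have hc : ∀ (b' : B') (m : M), c (b' ⊗ₜ m) = b' • j m := fun b' m => rfl
  -- the inverse from the universal property
  let h0 : M →+ B' ⊗[B] M :=
    { toFun := fun m => (1 : B') ⊗ₜ[B] m
      map_zero' := by simp
      map_add' := fun x y => by simp [TensorProduct.tmul_add] }
  have hh0 : ∀ (b : B) (n : M), h0 (b • n) = algebraMap B B' b • h0 n := by
    intro b n
    change (1 : B') ⊗ₜ[B] (b • n) = algebraMap B B' b • ((1 : B') ⊗ₜ[B] n)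
    rw [TensorProduct.smul_tmul', ← TensorProduct.smul_tmul, Algebra.smul_def, mul_one,
      smul_eq_mul, mul_one]
  obtain ⟨s, hs, -⟩ := huniv (B' ⊗[B] M) h0 hh0
  have hcs : c ∘ₗ s = LinearMap.id := by
    obtain ⟨t, -, ht⟩ := huniv M' j.toAddMonoidHom (fun b n => by
      change j (b • n) = algebraMap B B' b • j n
      rw [map_smul, algebraMap_smul])
    rw [ht (c ∘ₗ s) (fun n => by
      change c (s (j n)) = j n
      rw [hs]; change c ((1 : B') ⊗ₜ[B] n) = j n; rw [hc, one_smul]),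
      ht LinearMap.id (fun n => rfl)]
  have hsc : s ∘ₗ c = LinearMap.id := by
    apply TensorProduct.AlgebraTensorModule.ext
    intro b' m
    change s (c (b' ⊗ₜ m)) = b' ⊗ₜ m
    rw [hc, map_smul, hs]
    change b' • ((1 : B') ⊗ₜ[B] m) = b' ⊗ₜ m
    rw [TensorProduct.smul_tmul', smul_eq_mul, mul_one]
  have hbij : Function.Bijective c :=
    ⟨fun x y hxy => by
      have := congrArg s hxy
      simpa [← LinearMap.comp_apply, hsc] using this,
     fun y => ⟨s y, by simpa using LinearMap.congr_fun hcs y⟩⟩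
  exact hbij

/-- Mathlib's `IsBaseChange` implies the universal property used in `BaseChangeData`. -/
theorem univ_of_isBaseChange (j : M →ₗ[B] M') (hj : IsBaseChange B' j)
    (Q : Type u) [AddCommGroup Q] [Module B' Q] (h : M →+ Q)
    (hh : ∀ (b : B) (n : M), h (b • n) = algebraMap B B' b • h n) :
    ∃! h' : M' →ₗ[B'] Q, ∀ n, h' (j n) = h n := by
  letI : Module B Q := Module.compHom Q (algebraMap B B')
  haveI : IsScalarTower B B' Q := ⟨fun b b' q => by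
    change (b • b') • q = algebraMap B B' b • b' • q
    rw [Algebra.smul_def, mul_smul]⟩
  let hl : M →ₗ[B] Q :=
    { toFun := h
      map_add' := h.map_add
      map_smul' := fun b n => hh b n }
  refine ⟨hj.lift hl, fun n => hj.lift_eq hl n, ?_⟩
  intro h' hh'
  apply hj.algHom_ext
  intro x
  rw [hh', hj.lift_eq]
  rfl

end single

section square

variable {B B' C C' : Type u} [CommRing B] [CommRing B'] [CommRing C] [CommRing C']
  [Algebra B B'] [Algebra B C] [Algebra B' C'] [Algebra C C'] [Algebra B C']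
  [IsScalarTower B B' C'] [IsScalarTower B C C']
  {M M' P P' : Type u} [AddCommGroup M] [AddCommGroup M'] [AddCommGroup P] [AddCommGroup P']
  [Module B M]
  [Module B M'] [Module B' M'] [IsScalarTower B B' M']
  [Module B P] [Module C P] [IsScalarTower B C P]
  [Module B P'] [Module B' P'] [Module C P'] [Module C' P']
  [IsScalarTower B B' P'] [IsScalarTower B' C' P'] [IsScalarTower B C' P']
  [IsScalarTower B C P'] [IsScalarTower C C' P']

/-- In a commutative square of modules whose horizontal maps are base changes (e.g.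
localisations) and whose left vertical map is a base change, the right vertical map is a base
change. -/
theorem isBaseChange_of_square (ι : M →ₗ[B] P) (hι : IsBaseChange C ι)
    (ι' : M' →ₗ[B'] P') (hι' : IsBaseChange C' ι')
    (j : M →ₗ[B] M') (hj : IsBaseChange B' j) (j₁₂ : P →ₗ[C] P')
    (hcomm : ∀ m, j₁₂ (ι m) = ι' (j m)) : IsBaseChange C' j₁₂ := by
  have h1 : IsBaseChange C' ((ι'.restrictScalars B).comp j) := hj.comp hι'
  apply IsBaseChange.of_comp hι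
  convert h1 using 1
  ext m
  exact hcomm m

end square

section pushout

variable {R S A B : Type u} [CommRing R] [CommRing S] [CommRing A] [CommRing B]
  [Algebra R S] [Algebra R A] [Algebra R B] [Algebra A B] [Algebra S B]
  [IsScalarTower R A B] [IsScalarTower R S B] [Algebra.IsPushout R S A B]
  {M M' : Type u} [AddCommGroup M] [Module R M] [Module A M] [IsScalarTower R A M]
  [AddCommGroup M'] [Module R M'] [Module A M'] [Module S M'] [Module B M']
  [IsScalarTower A B M'] [IsScalarTower S B M'] [IsScalarTower R A M'] [IsScalarTower R S M']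

/-- If `B = S ⊗[R] A` and `M' = B ⊗[A] M`, then `M' = S ⊗[R] M`. -/
theorem isBaseChange_restrictScalars_of_isPushout (j : M →ₗ[A] M') (hj : IsBaseChange B j) :
    IsBaseChange S (j.restrictScalars R) := by
  refine IsBaseChange.of_equiv
    ((Algebra.IsPushout.cancelBaseChange R S A B M).symm ≪≫ₗ (hj.equiv.restrictScalars S)) ?_
  intro x
  simp [hj.equiv_tmul]

end pushout

section restrict

/-- Transitivity of the semilinear universal property: if `B' = R' ⊗[R] B` and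
`M' = B' ⊗[B] M` (both in universal-property form) then `M' = R' ⊗[R] M`. -/
theorem univ_restrict {R R' : Type u} [CommRing R] [CommRing R'] (φ : R →+* R')
    {B B' : Type u} [CommRing B] [CommRing B'] [Algebra R B] [Algebra R' B'] (ψ : B →+* B')
    (hψ : ∀ r, ψ (algebraMap R B r) = algebraMap R' B' (φ r))
    (hco : ∀ (Q : Type u) [AddCommGroup Q] [Module R' Q] (h : B →+ Q),
      (∀ (r : R) (b : B), h (r • b) = φ r • h b) →
        ∃! h' : B' →ₗ[R'] Q, ∀ b, h' (ψ b) = h b)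
    {M M' : Type u} [AddCommGroup M] [Module R M] [Module B M] [IsScalarTower R B M]
    [AddCommGroup M'] [Module R' M'] [Module B' M'] [IsScalarTower R' B' M']
    (j : M →+ M') (hj : ∀ (b : B) (m : M), j (b • m) = ψ b • j m)
    (huniv : ∀ (Q : Type u) [AddCommGroup Q] [Module B' Q] (h : M →+ Q),
      (∀ (b : B) (n : M), h (b • n) = ψ b • h n) →
        ∃! h' : M' →ₗ[B'] Q, ∀ n, h' (j n) = h n)
    (Q : Type u) [AddCommGroup Q] [Module R' Q] (h : M →+ Q)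
    (hh : ∀ (r : R) (n : M), h (r • n) = φ r • h n) :
    ∃! h' : M' →ₗ[R'] Q, ∀ n, h' (j n) = h n := by
  letI : Algebra R R' := φ.toAlgebra
  letI : Algebra B B' := ψ.toAlgebra
  letI : Algebra R B' := ((algebraMap R' B').comp φ).toAlgebra
  haveI : IsScalarTower R B B' := IsScalarTower.of_algebraMap_eq (fun r => (hψ r).symm)
  haveI : IsScalarTower R R' B' := IsScalarTower.of_algebraMap_eq (fun r => rfl)
  haveI : Algebra.IsPushout R R' B B' :=
    ⟨isBaseChange_of_univ (B := R) (B' := R') (M := B) (M' := B')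
      (IsScalarTower.toAlgHom R B B').toLinearMap (fun Q _ _ h hh => hco Q h hh)⟩
  letI : Module R M' := Module.compHom M' φ
  letI : Module B M' := Module.compHom M' ψ
  haveI : IsScalarTower B B' M' := ⟨fun b b' m => by
    change (ψ b * b') • m = ψ b • b' • m
    rw [mul_smul]⟩
  haveI : IsScalarTower R R' M' := ⟨fun r r' m => by
    change (φ r * r') • m = φ r • r' • m
    rw [mul_smul]⟩
  haveI : IsScalarTower R B M' := ⟨fun r b m => by
    change ψ (r • b) • m = φ r • ψ b • m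
    rw [Algebra.smul_def, map_mul, hψ, mul_smul, algebraMap_smul]⟩
  let jl : M →ₗ[B] M' :=
    { toFun := j
      map_add' := j.map_add
      map_smul' := fun b m => hj b m }
  have hjl : IsBaseChange B' jl := isBaseChange_of_univ jl huniv
  have H : IsBaseChange R' (jl.restrictScalars R) :=
    isBaseChange_restrictScalars_of_isPushout (R := R) (S := R') jl hjl
  exact univ_of_isBaseChange (B := R) (B' := R') (jl.restrictScalars R) H Q h hh

end restrict

section twoChart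

open GluedModule

variable {R R' : Type u} [CommRing R] [CommRing R'] {φ : R →+* R'}
  {𝔹 : TwoChart R} {𝔹' : TwoChart R'} {Ψ : TwoChart.Hom φ 𝔹 𝔹'}
  {N : GluedModule 𝔹} {N' : GluedModule 𝔹'}

/-- The overlap component of a `BaseChangeData` also has the universal property of
`B'₁₂ ⊗[B₁₂] N₁₂` (localisation commutes with base change). -/
theorem univ₁₂ (D : BaseChangeData Ψ N N')
    (Q : Type u) [AddCommGroup Q] [Module 𝔹'.B₁₂ Q] (h : N.N₁₂ →+ Q)
    (hh : ∀ (b : 𝔹.B₁₂) (n : N.N₁₂), h (b • n) = Ψ.ψ₁₂ b • h n) :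
    ∃! h' : N'.N₁₂ →ₗ[𝔹'.B₁₂] Q, ∀ n, h' (D.j₁₂ n) = h n := by
  letI aBB' : Algebra 𝔹.B₁ 𝔹'.B₁ := Ψ.ψ₁.toAlgebra
  letI aBC : Algebra 𝔹.B₁ 𝔹.B₁₂ := 𝔹.algebra₁
  letI aB'C' : Algebra 𝔹'.B₁ 𝔹'.B₁₂ := 𝔹'.algebra₁
  letI aCC' : Algebra 𝔹.B₁₂ 𝔹'.B₁₂ := Ψ.ψ₁₂.toAlgebra
  letI aBC' : Algebra 𝔹.B₁ 𝔹'.B₁₂ := (Ψ.ψ₁₂.comp 𝔹.r₁.toRingHom).toAlgebra
  haveI : IsScalarTower 𝔹.B₁ 𝔹'.B₁ 𝔹'.B₁₂ := IsScalarTower.of_algebraMap_eq (fun b => Ψ.comm₁ b)
  haveI : IsScalarTower 𝔹.B₁ 𝔹.B₁₂ 𝔹'.B₁₂ := IsScalarTower.of_algebraMap_eq (fun b => rfl)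
  letI : Module 𝔹.B₁ N'.N₁ := Module.compHom N'.N₁ Ψ.ψ₁
  haveI : IsScalarTower 𝔹.B₁ 𝔹'.B₁ N'.N₁ := ⟨fun b b' n => by
    change (Ψ.ψ₁ b * b') • n = Ψ.ψ₁ b • b' • n
    rw [mul_smul]⟩
  letI : Module 𝔹.B₁ N.N₁₂ := N.module₁
  haveI : IsScalarTower 𝔹.B₁ 𝔹.B₁₂ N.N₁₂ := N.isScalarTower₁
  letI : Module 𝔹'.B₁ N'.N₁₂ := N'.module₁
  haveI : IsScalarTower 𝔹'.B₁ 𝔹'.B₁₂ N'.N₁₂ := N'.isScalarTower₁
  letI : Module 𝔹.B₁₂ N'.N₁₂ := Module.compHom N'.N₁₂ Ψ.ψ₁₂
  haveI : IsScalarTower 𝔹.B₁₂ 𝔹'.B₁₂ N'.N₁₂ := ⟨fun c c' n => by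
    change (Ψ.ψ₁₂ c * c') • n = Ψ.ψ₁₂ c • c' • n
    rw [mul_smul]⟩
  letI : Module 𝔹.B₁ N'.N₁₂ := Module.compHom N'.N₁₂ (Ψ.ψ₁₂.comp 𝔹.r₁.toRingHom)
  haveI : IsScalarTower 𝔹.B₁ 𝔹'.B₁ N'.N₁₂ := ⟨fun b b' n => by
    change 𝔹'.r₁ (Ψ.ψ₁ b * b') • n = Ψ.ψ₁₂ (𝔹.r₁ b) • 𝔹'.r₁ b' • n
    rw [map_mul, mul_smul, Ψ.comm₁]⟩
  haveI : IsScalarTower 𝔹.B₁ 𝔹'.B₁₂ N'.N₁₂ := ⟨fun b c' n => by
    change (Ψ.ψ₁₂ (𝔹.r₁ b) * c') • n = Ψ.ψ₁₂ (𝔹.r₁ b) • c' • n
    rw [mul_smul]⟩
  haveI : IsScalarTower 𝔹.B₁ 𝔹.B₁₂ N'.N₁₂ := ⟨fun b c n => by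
    change Ψ.ψ₁₂ (𝔹.r₁ b * c) • n = Ψ.ψ₁₂ (𝔹.r₁ b) • Ψ.ψ₁₂ c • n
    rw [map_mul, mul_smul]⟩
  haveI := 𝔹.isLocalization₁
  haveI := 𝔹'.isLocalization₁
  haveI := N.isLocalizedModule₁
  haveI := N'.isLocalizedModule₁
  have hι : IsBaseChange 𝔹.B₁₂ N.ι₁ₗ :=
    IsLocalizedModule.isBaseChange (Submonoid.powers 𝔹.f) 𝔹.B₁₂ N.ι₁ₗ
  have hι' : IsBaseChange 𝔹'.B₁₂ N'.ι₁ₗ :=
    IsLocalizedModule.isBaseChange (Submonoid.powers 𝔹'.f) 𝔹'.B₁₂ N'.ι₁ₗ
  let jl : N.N₁ →ₗ[𝔹.B₁] N'.N₁ :=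
    { toFun := D.j₁
      map_add' := D.j₁.map_add
      map_smul' := fun b m => D.j₁_smul b m }
  have hjl : IsBaseChange 𝔹'.B₁ jl := isBaseChange_of_univ jl D.univ₁
  let j₁₂l : N.N₁₂ →ₗ[𝔹.B₁₂] N'.N₁₂ :=
    { toFun := D.j₁₂
      map_add' := D.j₁₂.map_add
      map_smul' := fun b m => D.j₁₂_smul b m }
  have H : IsBaseChange 𝔹'.B₁₂ j₁₂l :=
    isBaseChange_of_square N.ι₁ₗ hι N'.ι₁ₗ hι' jl hjl j₁₂l (fun m => D.comm₁ m)
  exact univ_of_isBaseChange j₁₂l H Q h hh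

/-- `Ψ` exhibits the rings of `𝔹'` as the base changes `R' ⊗[R] B_i` of the rings of `𝔹`
(universal property form).  Holds for `𝒞.chartHom φ`. -/
structure IsCocart (Ψ : TwoChart.Hom φ 𝔹 𝔹') : Prop where
  univ₁ : ∀ (Q : Type u) [AddCommGroup Q] [Module R' Q] (h : 𝔹.B₁ →+ Q),
    (∀ (r : R) (b : 𝔹.B₁), h (r • b) = φ r • h b) →
      ∃! h' : 𝔹'.B₁ →ₗ[R'] Q, ∀ b, h' (Ψ.ψ₁ b) = h b
  univ₂ : ∀ (Q : Type u) [AddCommGroup Q] [Module R' Q] (h : 𝔹.B₂ →+ Q),
    (∀ (r : R) (b : 𝔹.B₂), h (r • b) = φ r • h b) →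
      ∃! h' : 𝔹'.B₂ →ₗ[R'] Q, ∀ b, h' (Ψ.ψ₂ b) = h b
  univ₁₂ : ∀ (Q : Type u) [AddCommGroup Q] [Module R' Q] (h : 𝔹.B₁₂ →+ Q),
    (∀ (r : R) (b : 𝔹.B₁₂), h (r • b) = φ r • h b) →
      ∃! h' : 𝔹'.B₁₂ →ₗ[R'] Q, ∀ b, h' (Ψ.ψ₁₂ b) = h b

/-- `N'₁ = R' ⊗[R] N₁` (universal property form). -/
theorem univR₁ (hΨ : IsCocart Ψ) (D : BaseChangeData Ψ N N')
    (Q : Type u) [AddCommGroup Q] [Module R' Q] (h : N.N₁ →+ Q)
    (hh : ∀ (r : R) (n : N.N₁), h (r • n) = φ r • h n) :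
    ∃! h' : N'.N₁ →ₗ[R'] Q, ∀ n, h' (D.j₁ n) = h n :=
  univ_restrict φ Ψ.ψ₁ Ψ.alg₁ hΨ.univ₁ D.j₁ D.j₁_smul D.univ₁ Q h hh

/-- `N'₂ = R' ⊗[R] N₂` (universal property form). -/
theorem univR₂ (hΨ : IsCocart Ψ) (D : BaseChangeData Ψ N N')
    (Q : Type u) [AddCommGroup Q] [Module R' Q] (h : N.N₂ →+ Q)
    (hh : ∀ (r : R) (n : N.N₂), h (r • n) = φ r • h n) :
    ∃! h' : N'.N₂ →ₗ[R'] Q, ∀ n, h' (D.j₂ n) = h n :=
  univ_restrict φ Ψ.ψ₂ Ψ.alg₂ hΨ.univ₂ D.j₂ D.j₂_smul D.univ₂ Q h hh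

/-- `N'₁₂ = R' ⊗[R] N₁₂` (universal property form). -/
theorem univR₁₂ (hΨ : IsCocart Ψ) (D : BaseChangeData Ψ N N')
    (Q : Type u) [AddCommGroup Q] [Module R' Q] (h : N.N₁₂ →+ Q)
    (hh : ∀ (r : R) (n : N.N₁₂), h (r • n) = φ r • h n) :
    ∃! h' : N'.N₁₂ →ₗ[R'] Q, ∀ n, h' (D.j₁₂ n) = h n :=
  univ_restrict φ Ψ.ψ₁₂ Ψ.alg₁₂ hΨ.univ₁₂ D.j₁₂ D.j₁₂_smul (univ₁₂ D) Q h hh

end twoChart

section chart

/-- `R' ⊗[k] A` is the base change of `R ⊗[k] A` along `φ : R → R'` (universal property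
form). -/
theorem univ_tensor_map {k : Type u} [CommRing k] {R R' : Type u} [CommRing R] [CommRing R']
    [Algebra k R] [Algebra k R'] (φ : R →ₐ[k] R') (A : Type u) [CommRing A] [Algebra k A]
    (Q : Type u) [AddCommGroup Q] [Module R' Q] (h : R ⊗[k] A →+ Q)
    (hh : ∀ (r : R) (b : R ⊗[k] A), h (r • b) = φ r • h b) :
    ∃! h' : R' ⊗[k] A →ₗ[R'] Q,
      ∀ b, h' ((Algebra.TensorProduct.map φ (AlgHom.id k A)).toRingHom b) = h b := by
  have hk : ∀ (c : k) (a : A), h ((1 : R) ⊗ₜ[k] (c • a)) =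
      algebraMap k R' c • h ((1 : R) ⊗ₜ[k] a) := by
    intro c a
    rw [← TensorProduct.smul_tmul, ← φ.commutes, ← hh, Algebra.smul_def, mul_one,
      TensorProduct.smul_tmul', smul_eq_mul, mul_one]
  let f : R' →+ A →+ Q :=
    { toFun := fun r' =>
        { toFun := fun a => r' • h ((1 : R) ⊗ₜ[k] a)
          map_zero' := by simp
          map_add' := fun a b => by rw [TensorProduct.tmul_add, map_add, smul_add] }
      map_zero' := by ext a; simp
      map_add' := fun r s => by ext a; simp [add_smul] }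
  have hf : ∀ (c : k) (r' : R') (a : A), f (c • r') a = f r' (c • a) := by
    intro c r' a
    change (c • r') • h ((1 : R) ⊗ₜ[k] a) = r' • h ((1 : R) ⊗ₜ[k] (c • a))
    rw [hk, ← mul_smul, Algebra.smul_def, mul_comm]
  let g : R' ⊗[k] A →+ Q := TensorProduct.liftAddHom f hf
  have hg : ∀ (r' : R') (a : A), g (r' ⊗ₜ a) = r' • h ((1 : R) ⊗ₜ[k] a) := fun r' a => rfl
  let h' : R' ⊗[k] A →ₗ[R'] Q :=
    { toFun := g
      map_add' := g.map_add
      map_smul' := fun s x => by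
        induction x using TensorProduct.induction_on with
        | zero => simp
        | tmul r' a =>
          rw [TensorProduct.smul_tmul', hg, hg, smul_eq_mul, mul_smul, RingHom.id_apply]
        | add x y hx hy => rw [smul_add, map_add, map_add, hx, hy, smul_add] }
  have hh' : ∀ (r' : R') (a : A), h' (r' ⊗ₜ a) = r' • h ((1 : R) ⊗ₜ[k] a) := hg
  refine ⟨h', ?_, ?_⟩
  · intro b
    change h' (Algebra.TensorProduct.map φ (AlgHom.id k A) b) = h b
    induction b using TensorProduct.induction_on with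
    | zero => simp
    | tmul r a =>
      rw [Algebra.TensorProduct.map_tmul, AlgHom.id_apply, hh', ← hh, TensorProduct.smul_tmul',
        smul_eq_mul, mul_one]
    | add x y hx hy => rw [map_add, map_add, map_add, hx, hy]
  · intro h'' hh''
    apply LinearMap.ext
    intro x
    induction x using TensorProduct.induction_on with
    | zero => simp
    | tmul r' a =>
      have e1 : r' ⊗ₜ[k] a = r' • ((1 : R') ⊗ₜ[k] a) := by
        rw [TensorProduct.smul_tmul', smul_eq_mul, mul_one]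
      have e2 : h'' ((1 : R') ⊗ₜ[k] a) = h ((1 : R) ⊗ₜ[k] a) := by
        rw [← hh'']
        change h'' _ = h'' (Algebra.TensorProduct.map φ (AlgHom.id k A) ((1 : R) ⊗ₜ[k] a))
        rw [Algebra.TensorProduct.map_tmul, map_one, AlgHom.id_apply]
      rw [e1, map_smul, map_smul, e2, hh', one_smul]
    | add x y hx hy => rw [map_add, map_add, hx, hy]

variable {k : Type u} [Field k] (𝒞 : CurveData k) {R R' : Type u} [CommRing R] [Algebra k R]
  [CommRing R'] [Algebra k R']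

/-- The base change morphism `𝒞.chartHom φ` of the family two-chart is cocartesian. -/
theorem chartHom_isCocart (φ : R →ₐ[k] R') : IsCocart (𝒞.chartHom φ) where
  univ₁ := fun Q _ _ h hh => univ_tensor_map φ 𝒞.A₁ Q h hh
  univ₂ := fun Q _ _ h hh => univ_tensor_map φ 𝒞.A₂ Q h hh
  univ₁₂ := fun Q _ _ h hh => univ_tensor_map φ 𝒞.A₁₂ Q h hh

end chart

end Fermat.Agent.S25.Lib.BCRel
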