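/-
S25 LIB (helper2411): cohomology and base change for the frozen relation `GluedModule.IsBC`.
`H¹` commutes with every cocartesian base change, `H⁰` with flat ones; `chi` is invariant
under extension of the base field.
-/
import Fermat.Agent.S25.Lib.BCRel.Bridge2411

set_option autoImplicit false
set_option linter.style.haveILetI false

universe u

namespace Fermat.Agent.S25.Lib.BCRel

open scoped TensorProduct

open GluedModule

section semilinear

variable {R R' : Type u} [CommRing R] [CommRing R'] {φ : R →+* R'}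
  {𝔹 : TwoChart R} {𝔹' : TwoChart R'} {Ψ : TwoChart.Hom φ 𝔹 𝔹'}
  {N : GluedModule 𝔹} {N' : GluedModule 𝔹'}

theorem j₁_smulR (D : BaseChangeData Ψ N N') (r : R) (n : N.N₁) :
    D.j₁ (r • n) = φ r • D.j₁ n := by
  rw [← algebraMap_smul 𝔹.B₁ r n, D.j₁_smul, Ψ.alg₁, algebraMap_smul]

theorem j₂_smulR (D : BaseChangeData Ψ N N') (r : R) (n : N.N₂) :
    D.j₂ (r • n) = φ r • D.j₂ n := by
  rw [← algebraMap_smul 𝔹.B₂ r n, D.j₂_smul, Ψ.alg₂, algebraMap_smul]

theorem j₁₂_smulR (D : BaseChangeData Ψ N N') (r : R) (n : N.N₁₂) :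
    D.j₁₂ (r • n) = φ r • D.j₁₂ n := by
  rw [← algebraMap_smul 𝔹.B₁₂ r n, D.j₁₂_smul, Ψ.alg₁₂, algebraMap_smul]

/-- `j₁` as a `φ`-semilinear map. -/
def j₁ₛ (D : BaseChangeData Ψ N N') : N.N₁ →ₛₗ[φ] N'.N₁ where
  toFun := D.j₁
  map_add' := D.j₁.map_add
  map_smul' := j₁_smulR D

/-- `j₂` as a `φ`-semilinear map. -/
def j₂ₛ (D : BaseChangeData Ψ N N') : N.N₂ →ₛₗ[φ] N'.N₂ where
  toFun := D.j₂
  map_add' := D.j₂.map_add
  map_smul' := j₂_smulR D

/-- `j₁₂` as a `φ`-semilinear map. -/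
def j₁₂ₛ (D : BaseChangeData Ψ N N') : N.N₁₂ →ₛₗ[φ] N'.N₁₂ where
  toFun := D.j₁₂
  map_add' := D.j₁₂.map_add
  map_smul' := j₁₂_smulR D

@[simp] theorem j₁ₛ_apply (D : BaseChangeData Ψ N N') (n : N.N₁) : j₁ₛ D n = D.j₁ n := rfl

@[simp] theorem j₂ₛ_apply (D : BaseChangeData Ψ N N') (n : N.N₂) : j₂ₛ D n = D.j₂ n := rfl

@[simp] theorem j₁₂ₛ_apply (D : BaseChangeData Ψ N N') (n : N.N₁₂) : j₁₂ₛ D n = D.j₁₂ n := rfl

/-- The base change maps commute with the Čech differentials. -/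
theorem j₁₂_d (D : BaseChangeData Ψ N N') (x : N.N₁ × N.N₂) :
    D.j₁₂ (N.d x) = N'.d (D.j₁ x.1, D.j₂ x.2) := by
  rw [d_apply, d_apply, map_sub, D.comm₁, D.comm₂]

/-- The induced `φ`-semilinear map on `H¹`. -/
def jH1 (D : BaseChangeData Ψ N N') : N.H1 →ₛₗ[φ] N'.H1 :=
  Submodule.mapQ _ _ (j₁₂ₛ D) (by
    rintro _ ⟨x, rfl⟩
    rw [Submodule.mem_comap]
    change D.j₁₂ (N.d x) ∈ _
    rw [j₁₂_d]
    exact ⟨_, rfl⟩)

@[simp] theorem jH1_mk (D : BaseChangeData Ψ N N') (x : N.N₁₂) :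
    jH1 D (Submodule.Quotient.mk x) = Submodule.Quotient.mk (D.j₁₂ x) := rfl

/-- The induced `φ`-semilinear map on `H⁰`. -/
def jH0 (D : BaseChangeData Ψ N N') : N.H0 →ₛₗ[φ] N'.H0 where
  toFun x := ⟨(D.j₁ (x : N.N₁ × N.N₂).1, D.j₂ (x : N.N₁ × N.N₂).2), by
    have hx := (mem_H0 N x.1).mp x.2
    rw [mem_H0]
    change N'.ι₁ (D.j₁ _) = N'.ι₂ (D.j₂ _)
    rw [← D.comm₁, ← D.comm₂, hx]⟩
  map_add' x y := by
    apply Subtype.ext
    simp
  map_smul' r x := by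
    apply Subtype.ext
    simp [j₁_smulR, j₂_smulR]

@[simp] theorem jH0_coe (D : BaseChangeData Ψ N N') (x : N.H0) :
    ((jH0 D x : N'.H0) : N'.N₁ × N'.N₂) =
      (D.j₁ (x : N.N₁ × N.N₂).1, D.j₂ (x : N.N₁ × N.N₂).2) := rfl

/-- `H¹` commutes with cocartesian base change (universal property form): `N'.H1` is
`R' ⊗[R] N.H1`. -/
theorem univH1 (hΨ : IsCocart Ψ) (D : BaseChangeData Ψ N N')
    (Q : Type u) [AddCommGroup Q] [Module R' Q] (h : N.H1 →+ Q)
    (hh : ∀ (r : R) (x : N.H1), h (r • x) = φ r • h x) :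
    ∃! h' : N'.H1 →ₗ[R'] Q, ∀ x, h' (jH1 D x) = h x := by
  -- lift `h ∘ mk` to `N'.N₁₂`
  let h₀ : N.N₁₂ →+ Q := h.comp (Submodule.mkQ (LinearMap.range N.d)).toAddMonoidHom
  have hh₀ : ∀ (r : R) (n : N.N₁₂), h₀ (r • n) = φ r • h₀ n := by
    intro r n
    change h (Submodule.Quotient.mk (r • n)) = φ r • h (Submodule.Quotient.mk n)
    rw [Submodule.Quotient.mk_smul, hh]
  obtain ⟨g, hg, hguniq⟩ := univR₁₂ hΨ D Q h₀ hh₀
  -- `g` kills the image of `ι₁'` and of `ι₂'`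
  have hg1 : ∀ a : N'.N₁, g (N'.ι₁ a) = 0 := by
    obtain ⟨t, -, ht⟩ := univR₁ hΨ D Q (0 : N.N₁ →+ Q) (fun r n => by simp)
    have e1 : g ∘ₗ N'.ι₁ = t := ht _ (fun n => by
      change g (N'.ι₁ (D.j₁ n)) = 0
      rw [← D.comm₁, hg]
      change h (Submodule.Quotient.mk (N.ι₁ n)) = 0
      have : (Submodule.Quotient.mk (N.ι₁ n) : N.H1) = 0 := by
        rw [Submodule.Quotient.mk_eq_zero]
        exact ⟨(n, 0), by simp [d_apply]⟩
      rw [this, map_zero])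
    have e2 : (0 : N'.N₁ →ₗ[R'] Q) = t := ht _ (fun n => rfl)
    intro a
    have := LinearMap.congr_fun (e1.trans e2.symm) a
    simpa using this
  have hg2 : ∀ b : N'.N₂, g (N'.ι₂ b) = 0 := by
    obtain ⟨t, -, ht⟩ := univR₂ hΨ D Q (0 : N.N₂ →+ Q) (fun r n => by simp)
    have e1 : g ∘ₗ N'.ι₂ = t := ht _ (fun n => by
      change g (N'.ι₂ (D.j₂ n)) = 0
      rw [← D.comm₂, hg]
      change h (Submodule.Quotient.mk (N.ι₂ n)) = 0
      have : (Submodule.Quotient.mk (N.ι₂ n) : N.H1) = 0 := by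
        rw [Submodule.Quotient.mk_eq_zero]
        exact ⟨(0, -n), by simp [d_apply]⟩
      rw [this, map_zero])
    have e2 : (0 : N'.N₂ →ₗ[R'] Q) = t := ht _ (fun n => rfl)
    intro b
    have := LinearMap.congr_fun (e1.trans e2.symm) b
    simpa using this
  have hker : LinearMap.range N'.d ≤ LinearMap.ker g := by
    rintro _ ⟨x, rfl⟩
    rw [LinearMap.mem_ker, d_apply, map_sub, hg1, hg2, sub_zero]
  refine ⟨Submodule.liftQ _ g hker, ?_, ?_⟩
  · intro x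
    induction x using Submodule.Quotient.induction_on with
    | _ x =>
      rw [jH1_mk, Submodule.liftQ_apply, hg]
      rfl
  · intro h'' hh''
    apply Submodule.linearMap_qext
    have : h'' ∘ₗ Submodule.mkQ (LinearMap.range N'.d) = g := hguniq _ (fun n => by
      change h'' (Submodule.Quotient.mk (D.j₁₂ n)) = h (Submodule.Quotient.mk n)
      rw [← jH1_mk, hh''])
    rw [this]
    ext x
    simp

end semilinear

section tensor

/-- From the semilinear universal property to a tensor product description. -/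
noncomputable def equivOfUniv {R R' : Type u} [CommRing R] [CommRing R'] [Algebra R R']
    {M M' : Type u} [AddCommGroup M] [Module R M] [AddCommGroup M'] [Module R' M']
    (j : M →ₛₗ[algebraMap R R'] M')
    (huniv : ∀ (Q : Type u) [AddCommGroup Q] [Module R' Q] (h : M →+ Q),
      (∀ (r : R) (n : M), h (r • n) = algebraMap R R' r • h n) →
        ∃! h' : M' →ₗ[R'] Q, ∀ n, h' (j n) = h n) : R' ⊗[R] M ≃ₗ[R'] M' :=
  letI : Module R M' := Module.compHom M' (algebraMap R R')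
  haveI : IsScalarTower R R' M' := ⟨fun r r' m => by
    change (r • r') • m = algebraMap R R' r • r' • m
    rw [Algebra.smul_def, mul_smul]⟩
  (isBaseChange_of_univ (B := R) (B' := R')
    ({ toFun := j
       map_add' := j.map_add
       map_smul' := fun r m => j.map_smulₛₗ r m } : M →ₗ[R] M') huniv).equiv

theorem equivOfUniv_tmul {R R' : Type u} [CommRing R] [CommRing R'] [Algebra R R']
    {M M' : Type u} [AddCommGroup M] [Module R M] [AddCommGroup M'] [Module R' M']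
    (j : M →ₛₗ[algebraMap R R'] M')
    (huniv : ∀ (Q : Type u) [AddCommGroup Q] [Module R' Q] (h : M →+ Q),
      (∀ (r : R) (n : M), h (r • n) = algebraMap R R' r • h n) →
        ∃! h' : M' →ₗ[R'] Q, ∀ n, h' (j n) = h n) (r' : R') (m : M) :
    equivOfUniv j huniv (r' ⊗ₜ m) = r' • j m :=
  letI : Module R M' := Module.compHom M' (algebraMap R R')
  haveI : IsScalarTower R R' M' := ⟨fun r r' m => by
    change (r • r') • m = algebraMap R R' r • r' • m
    rw [Algebra.smul_def, mul_smul]⟩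
  IsBaseChange.equiv_tmul _ r' m

variable {R R' : Type u} [CommRing R] [CommRing R'] [Algebra R R']
  {𝔹 : TwoChart R} {𝔹' : TwoChart R'} {Ψ : TwoChart.Hom (algebraMap R R') 𝔹 𝔹'}
  {N : GluedModule 𝔹} {N' : GluedModule 𝔹'}

/-- `R' ⊗[R] N₁ ≃ N'₁`. -/
noncomputable def tensorEquiv₁ (hΨ : IsCocart Ψ) (D : BaseChangeData Ψ N N') :
    R' ⊗[R] N.N₁ ≃ₗ[R'] N'.N₁ :=
  equivOfUniv (j₁ₛ D) (univR₁ hΨ D)

@[simp] theorem tensorEquiv₁_tmul (hΨ : IsCocart Ψ) (D : BaseChangeData Ψ N N') (r' : R')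
    (n : N.N₁) : tensorEquiv₁ hΨ D (r' ⊗ₜ n) = r' • D.j₁ n :=
  equivOfUniv_tmul _ _ r' n

/-- `R' ⊗[R] N₂ ≃ N'₂`. -/
noncomputable def tensorEquiv₂ (hΨ : IsCocart Ψ) (D : BaseChangeData Ψ N N') :
    R' ⊗[R] N.N₂ ≃ₗ[R'] N'.N₂ :=
  equivOfUniv (j₂ₛ D) (univR₂ hΨ D)

@[simp] theorem tensorEquiv₂_tmul (hΨ : IsCocart Ψ) (D : BaseChangeData Ψ N N') (r' : R')
    (n : N.N₂) : tensorEquiv₂ hΨ D (r' ⊗ₜ n) = r' • D.j₂ n :=
  equivOfUniv_tmul _ _ r' n

/-- `R' ⊗[R] N₁₂ ≃ N'₁₂`. -/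
noncomputable def tensorEquiv₁₂ (hΨ : IsCocart Ψ) (D : BaseChangeData Ψ N N') :
    R' ⊗[R] N.N₁₂ ≃ₗ[R'] N'.N₁₂ :=
  equivOfUniv (j₁₂ₛ D) (univR₁₂ hΨ D)

@[simp] theorem tensorEquiv₁₂_tmul (hΨ : IsCocart Ψ) (D : BaseChangeData Ψ N N') (r' : R')
    (n : N.N₁₂) : tensorEquiv₁₂ hΨ D (r' ⊗ₜ n) = r' • D.j₁₂ n :=
  equivOfUniv_tmul _ _ r' n

/-- `R' ⊗[R] H¹(N) ≃ H¹(N')`: `H¹` commutes with cocartesian base change. -/
noncomputable def tensorEquivH1 (hΨ : IsCocart Ψ) (D : BaseChangeData Ψ N N') :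
    R' ⊗[R] N.H1 ≃ₗ[R'] N'.H1 :=
  equivOfUniv (jH1 D) (univH1 hΨ D)

@[simp] theorem tensorEquivH1_tmul (hΨ : IsCocart Ψ) (D : BaseChangeData Ψ N N') (r' : R')
    (x : N.H1) : tensorEquivH1 hΨ D (r' ⊗ₜ x) = r' • jH1 D x :=
  equivOfUniv_tmul _ _ r' x

/-- `R' ⊗[R] (N₁ × N₂) ≃ N'₁ × N'₂`. -/
noncomputable def tensorEquivProd (hΨ : IsCocart Ψ) (D : BaseChangeData Ψ N N') :
    R' ⊗[R] (N.N₁ × N.N₂) ≃ₗ[R'] N'.N₁ × N'.N₂ :=
  (TensorProduct.prodRight R R' R' N.N₁ N.N₂) ≪≫ₗ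
    (LinearEquiv.prodCongr (tensorEquiv₁ hΨ D) (tensorEquiv₂ hΨ D))

@[simp] theorem tensorEquivProd_tmul (hΨ : IsCocart Ψ) (D : BaseChangeData Ψ N N') (r' : R')
    (x : N.N₁ × N.N₂) :
    tensorEquivProd hΨ D (r' ⊗ₜ x) = (r' • D.j₁ x.1, r' • D.j₂ x.2) := by
  simp [tensorEquivProd]

/-- The tensor equivalences intertwine `R' ⊗ d` with `d'`. -/
theorem tensorEquiv₁₂_baseChange_d (hΨ : IsCocart Ψ) (D : BaseChangeData Ψ N N')
    (t : R' ⊗[R] (N.N₁ × N.N₂)) :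
    tensorEquiv₁₂ hΨ D (N.d.baseChange R' t) = N'.d (tensorEquivProd hΨ D t) := by
  induction t using TensorProduct.induction_on with
  | zero => simp
  | tmul r' x =>
    rw [LinearMap.baseChange_tmul, tensorEquiv₁₂_tmul, tensorEquivProd_tmul, j₁₂_d,
      ← map_smul]
    rfl
  | add x y hx hy => rw [map_add, map_add, map_add, map_add, hx, hy]

end tensor

section flat

variable {R R' : Type u} [CommRing R] [CommRing R'] [Algebra R R']
  {𝔹 : TwoChart R} {𝔹' : TwoChart R'} {Ψ : TwoChart.Hom (algebraMap R R') 𝔹 𝔹'}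
  {N : GluedModule 𝔹} {N' : GluedModule 𝔹'}

/-- The canonical map `R' ⊗[R] H⁰(N) → N'₁ × N'₂`. -/
noncomputable def h0Map (hΨ : IsCocart Ψ) (D : BaseChangeData Ψ N N') :
    R' ⊗[R] N.H0 →ₗ[R'] N'.N₁ × N'.N₂ :=
  (tensorEquivProd hΨ D).toLinearMap ∘ₗ (N.H0.subtype.baseChange R')

theorem h0Map_tmul (hΨ : IsCocart Ψ) (D : BaseChangeData Ψ N N') (r' : R') (x : N.H0) :
    h0Map hΨ D (r' ⊗ₜ x) = r' • ((jH0 D x : N'.H0) : N'.N₁ × N'.N₂) := by
  simp [h0Map]

theorem h0Map_mem (hΨ : IsCocart Ψ) (D : BaseChangeData Ψ N N') (t : R' ⊗[R] N.H0) :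
    h0Map hΨ D t ∈ N'.H0 := by
  induction t using TensorProduct.induction_on with
  | zero => simp
  | tmul r' x =>
    rw [h0Map_tmul]
    exact N'.H0.smul_mem r' (jH0 D x).2
  | add x y hx hy =>
    rw [map_add]
    exact N'.H0.add_mem hx hy

variable [Module.Flat R R']

theorem h0Map_injective (hΨ : IsCocart Ψ) (D : BaseChangeData Ψ N N') :
    Function.Injective (h0Map hΨ D) := by
  refine (tensorEquivProd hΨ D).injective.comp ?_
  rw [LinearMap.baseChange_eq_ltensor]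
  exact Module.Flat.lTensor_preserves_injective_linearMap _ (Submodule.injective_subtype _)

theorem h0Map_surjOn (hΨ : IsCocart Ψ) (D : BaseChangeData Ψ N N') (y : N'.N₁ × N'.N₂)
    (hy : y ∈ N'.H0) : ∃ t, h0Map hΨ D t = y := by
  have hex : Function.Exact ((N.H0.subtype).lTensor R') (N.d.lTensor R') :=
    Module.Flat.lTensor_exact R' (LinearMap.exact_subtype_ker_map N.d)
  set t₀ := (tensorEquivProd hΨ D).symm y with ht₀
  have h1 : N.d.lTensor R' t₀ = 0 := by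
    have h2 : tensorEquiv₁₂ hΨ D (N.d.baseChange R' t₀) = 0 := by
      rw [tensorEquiv₁₂_baseChange_d, ht₀, LinearEquiv.apply_symm_apply]
      exact hy
    have h3 : N.d.baseChange R' t₀ = 0 := by
      simpa using h2
    rw [← LinearMap.baseChange_eq_ltensor]
    exact h3
  obtain ⟨t, ht⟩ := (hex t₀).mp h1
  refine ⟨t, ?_⟩
  change tensorEquivProd hΨ D (N.H0.subtype.baseChange R' t) = y
  rw [LinearMap.baseChange_eq_ltensor, ht, ht₀, LinearEquiv.apply_symm_apply]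

/-- `R' ⊗[R] H⁰(N) ≃ H⁰(N')` for flat cocartesian base change. -/
noncomputable def tensorEquivH0 (hΨ : IsCocart Ψ) (D : BaseChangeData Ψ N N') :
    R' ⊗[R] N.H0 ≃ₗ[R'] N'.H0 :=
  LinearEquiv.ofBijective ((h0Map hΨ D).codRestrict N'.H0 (h0Map_mem hΨ D))
    ⟨fun x y hxy => h0Map_injective hΨ D (congrArg Subtype.val hxy),
     fun y => by
      obtain ⟨t, ht⟩ := h0Map_surjOn hΨ D y.1 y.2
      exact ⟨t, Subtype.ext ht⟩⟩

@[simp] theorem tensorEquivH0_tmul (hΨ : IsCocart Ψ) (D : BaseChangeData Ψ N N') (r' : R')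
    (x : N.H0) : tensorEquivH0 hΨ D (r' ⊗ₜ x) = r' • jH0 D x := by
  apply Subtype.ext
  change h0Map hΨ D (r' ⊗ₜ x) = _
  rw [h0Map_tmul]
  rfl

end flat

section field

variable {K K' : Type u} [Field K] [Field K'] [Algebra K K']
  {𝔹 : TwoChart K} {𝔹' : TwoChart K'} {Ψ : TwoChart.Hom (algebraMap K K') 𝔹 𝔹'}
  {N : GluedModule 𝔹} {N' : GluedModule 𝔹'}

theorem finrank_H0_eq (hΨ : IsCocart Ψ) (D : BaseChangeData Ψ N N') :
    Module.finrank K' N'.H0 = Module.finrank K N.H0 := by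
  rw [← (tensorEquivH0 hΨ D).finrank_eq, Module.finrank_baseChange]

theorem finrank_H1_eq (hΨ : IsCocart Ψ) (D : BaseChangeData Ψ N N') :
    Module.finrank K' N'.H1 = Module.finrank K N.H1 := by
  rw [← (tensorEquivH1 hΨ D).finrank_eq, Module.finrank_baseChange]

/-- The Euler characteristic is invariant under extension of the base field. -/
theorem chi_eq_of_baseChangeData (hΨ : IsCocart Ψ) (D : BaseChangeData Ψ N N') :
    chi N' = chi N := by
  unfold chi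
  rw [finrank_H0_eq hΨ D, finrank_H1_eq hΨ D]

end field

section chartField

variable {k : Type u} [Field k] (𝒞 : CurveData k) {K K' : Type u} [Field K] [Field K']
  [Algebra k K] [Algebra k K']

/-- The Euler characteristic of a glued module over the family chart of a field is invariant
under base change to a bigger field. -/
theorem chi_eq_of_isBC (φ : K →ₐ[k] K') (N : GluedModule (𝒞.chart K))
    (N' : GluedModule (𝒞.chart K')) (h : IsBC (𝒞.chartHom φ) N N') : chi N' = chi N := by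
  letI : Algebra K K' := (φ : K →+* K').toAlgebra
  obtain ⟨D⟩ := h
  exact chi_eq_of_baseChangeData (Ψ := 𝒞.chartHom φ) (chartHom_isCocart 𝒞 φ) D

/-- Finite dimensionality of `H⁰`, `H¹` descends and ascends along field extensions:
dimensions are equal. -/
theorem finrank_H0_eq_of_isBC (φ : K →ₐ[k] K') (N : GluedModule (𝒞.chart K))
    (N' : GluedModule (𝒞.chart K')) (h : IsBC (𝒞.chartHom φ) N N') :
    Module.finrank K' N'.H0 = Module.finrank K N.H0 := by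
  letI : Algebra K K' := (φ : K →+* K').toAlgebra
  obtain ⟨D⟩ := h
  exact finrank_H0_eq (Ψ := 𝒞.chartHom φ) (chartHom_isCocart 𝒞 φ) D

theorem finrank_H1_eq_of_isBC (φ : K →ₐ[k] K') (N : GluedModule (𝒞.chart K))
    (N' : GluedModule (𝒞.chart K')) (h : IsBC (𝒞.chartHom φ) N N') :
    Module.finrank K' N'.H1 = Module.finrank K N.H1 := by
  letI : Algebra K K' := (φ : K →+* K').toAlgebra
  obtain ⟨D⟩ := h
  exact finrank_H1_eq (Ψ := 𝒞.chartHom φ) (chartHom_isCocart 𝒞 φ) D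

end chartField

end Fermat.Agent.S25.Lib.BCRel
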